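/-
[P2] (helper71), step 2a: the multiplicative group of `Ω = PadicAlgCl q` as a smooth,
`p`-divisible module over (open subgroups of) the local Galois group, with `Ω^×[p] = ⟨ζ⟩`.
-/
import Fermat.Agent.S55.Profin15.Local
import Fermat.Agent.S55.CD3.Restrict
import Fermat.Agent.S55.Krasner81
import Fermat.Agent.S55.LocDev51.Quot

set_option autoImplicit false

open CategoryTheory groupCohomology IntermediateField
open Fermat.Agent.S55.Profin15
open Fermat.Agent.S55.LocDev51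
open Fermat.Agent.Lib.FrobeniusExists (Qb GQ)

namespace Fermat.Agent.S55.P2Local71

attribute [local instance] Units.mulDistribMulActionRight

variable (q : ℕ) [Fact q.Prime]

/-- the local field `Ω = ℚ̄_q` -/
abbrev Om : Type := PadicAlgCl q

/-- the local absolute Galois group -/
abbrev GalQ : Type := PadicAlgCl q ≃ₐ[ℚ_[q]] PadicAlgCl q

/-- level structure on the local Galois group, pulled back from `G_ℚ` -/
noncomputable abbrev lev : LevelStr (GalQ q) := pullLevels (localGaloisToGlobal q)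

variable {q}

/-- every element of `Ω` is fixed by a level -/
lemma exists_level_fixing_elt (x : Om q) :
    ∃ U ∈ (lev q).levels, ∀ s ∈ U, s x = x := by
  have hint : IsIntegral ℚ_[q] x := (PadicAlgCl.isAlgebraic q).isIntegral.1 x
  have : FiniteDimensional ℚ_[q] ℚ_[q]⟮x⟯ := IntermediateField.adjoin.finiteDimensional hint
  obtain ⟨F, hF, h⟩ := Krasner81.exists_level q ℚ_[q]⟮x⟯
  have := hF
  obtain ⟨U₀, hU₀, hle⟩ := exists_allLevel_le F
  refine ⟨U₀.comap (localGaloisToGlobal q), LevelStr.mem_comap_levels.2 ⟨U₀, hU₀, rfl⟩,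
    fun s hs => ?_⟩
  have := h s (hle hs)
  exact (IntermediateField.mem_fixingSubgroup_iff _ _).1 this x
    (IntermediateField.mem_adjoin_simple_self _ x)

variable (V : Subgroup (GalQ q))

/-- the action of `v ∈ V` on a unit, on the underlying element -/
lemma coe_smul_unit (v : ↥V) (u : (Om q)ˣ) : ((v • u : (Om q)ˣ) : Om q) = (v : GalQ q) (u : Om q) :=
  rfl

/-- `Ωˣ` is a smooth `V`-module for the restricted levels. -/
lemma isSmoothRep_units (hV : CD3.IsOpenSub (lev q) V) :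
    CD3.IsSmoothRep (CD3.restrictLevels (lev q) V hV) (unitsRep ↥V (Om q)).ρ := by
  intro x
  obtain ⟨U₁, hU₁, h₁⟩ := exists_level_fixing_elt ((toU x : (Om q)ˣ) : Om q)
  obtain ⟨U₂, hU₂, h₂⟩ := hV
  obtain ⟨U₃, hU₃, hle⟩ := (lev q).directed U₁ hU₁ U₂ hU₂
  refine ⟨U₃.subgroupOf V, ⟨U₃, hU₃, (hle.trans inf_le_right).trans h₂, rfl⟩, fun s hs => ?_⟩
  rw [Subgroup.mem_subgroupOf] at hs
  apply toU_injective
  rw [toU_unitsRep_ρ]
  ext
  exact h₁ _ (hle.trans inf_le_left hs)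

/-- `Ωˣ` is `n`-divisible for `n > 0` (`Ω` is algebraically closed). -/
lemma units_divisible {n : ℕ} (hn : 0 < n) (x : unitsRep ↥V (Om q)) :
    ∃ y : unitsRep ↥V (Om q), n • y = x := by
  obtain ⟨z, hz⟩ := IsAlgClosed.exists_pow_nat_eq ((toU x : (Om q)ˣ) : Om q) hn
  have hz0 : z ≠ 0 := by
    rintro rfl
    rw [zero_pow hn.ne'] at hz
    exact (toU x).ne_zero hz.symm
  refine ⟨ofU (Units.mk0 z hz0), ?_⟩
  apply toU_injective
  have key : ∀ (m : ℕ) (y : unitsRep ↥V (Om q)), toU (m • y) = toU y ^ m := by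
    intro m y
    induction m with
    | zero => simp
    | succ m ih => rw [succ_nsmul, toU_add, ih, pow_succ]
  rw [key, toU_ofU]
  ext
  simpa using hz

section Roots

variable (q) (p : ℕ) [hp : Fact p.Prime]

instance neZero_p_Om : NeZero ((p : ℕ) : Om q) :=
  ⟨Nat.cast_ne_zero.2 hp.out.ne_zero⟩

/-- a primitive `p`-th root of unity in `Ω` -/
lemma exists_primitiveRoot : ∃ ζ : Om q, IsPrimitiveRoot ζ p :=
  HasEnoughRootsOfUnity.exists_primitiveRoot (Om q) p

variable {q p}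

/-- the stabiliser of `ζ` in the local Galois group -/
noncomputable def zetaStab {ζ : Om q} (hζ : IsPrimitiveRoot ζ p) : Subgroup (GalQ q) :=
  haveI : NeZero p := ⟨hp.out.ne_zero⟩
  (hζ.autToPow ℚ_[q]).ker

lemma mem_zetaStab {ζ : Om q} (hζ : IsPrimitiveRoot ζ p) {τ : GalQ q} :
    τ ∈ zetaStab hζ ↔ τ ζ = ζ := by
  have : NeZero p := ⟨hp.out.ne_zero⟩
  rw [zetaStab, MonoidHom.mem_ker]
  constructor
  · intro h
    have := hζ.autToPow_spec ℚ_[q] τ
    rw [h] at this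
    simpa [ZMod.val_one] using this.symm
  · intro h
    have h1 := hζ.autToPow_spec ℚ_[q] τ
    rw [h] at h1
    have h2 : ((hζ.autToPow ℚ_[q] τ : (ZMod p)ˣ) : ZMod p).val = 1 := by
      have hlt : ((hζ.autToPow ℚ_[q] τ : (ZMod p)ˣ) : ZMod p).val < p := ZMod.val_lt _
      have h1' : ζ ^ ((hζ.autToPow ℚ_[q] τ : (ZMod p)ˣ) : ZMod p).val = ζ ^ 1 := by rw [h1, pow_one]
      exact hζ.pow_inj hlt hp.out.one_lt h1'
    apply Units.ext
    rw [Units.val_one, ← ZMod.natCast_zmod_val ((hζ.autToPow ℚ_[q] τ : (ZMod p)ˣ) : ZMod p), h2,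
      Nat.cast_one]

lemma zetaStab_index_dvd {ζ : Om q} (hζ : IsPrimitiveRoot ζ p) :
    (zetaStab hζ).index ∣ p - 1 := by
  have : NeZero p := ⟨hp.out.ne_zero⟩
  rw [zetaStab, Subgroup.index_ker]
  have h1 : Nat.card (hζ.autToPow ℚ_[q]).range ∣ Nat.card (ZMod p)ˣ :=
    Subgroup.card_subgroup_dvd_card _
  have h2 : Nat.card (ZMod p)ˣ = p - 1 := by
    rw [Nat.card_eq_fintype_card, ZMod.card_units_eq_totient, Nat.totient_prime hp.out]
  rwa [h2] at h1

lemma not_dvd_of_dvd_pred {d : ℕ} (h : d ∣ p - 1) : ¬ p ∣ d := by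
  intro hpd
  have h1 : p ∣ p - 1 := hpd.trans h
  have h2 : 0 < p - 1 := Nat.sub_pos_of_lt hp.out.one_lt
  have := Nat.le_of_dvd h2 h1
  omega

instance zetaStab_normal {ζ : Om q} (hζ : IsPrimitiveRoot ζ p) : (zetaStab hζ).Normal := by
  unfold zetaStab
  infer_instance

lemma isOpenSub_zetaStab {ζ : Om q} (hζ : IsPrimitiveRoot ζ p) :
    CD3.IsOpenSub (lev q) (zetaStab hζ) := by
  obtain ⟨U, hU, h⟩ := exists_level_fixing_elt ζ
  exact ⟨U, hU, fun s hs => (mem_zetaStab hζ).2 (h s hs)⟩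

/-- the open subgroups fixing `ζ` are cofinal up to prime-to-`p` index -/
lemma cofinal_zetaStab {ζ : Om q} (hζ : IsPrimitiveRoot ζ p) (V : Subgroup (GalQ q))
    (hV : CD3.IsOpenSub (lev q) V) :
    ∃ V' ∈ {W : Subgroup (GalQ q) | W ≤ zetaStab hζ}, V' ≤ V ∧ CD3.IsOpenSub (lev q) V' ∧
      ¬ p ∣ V'.relIndex V := by
  refine ⟨V ⊓ zetaStab hζ, show V ⊓ zetaStab hζ ≤ zetaStab hζ from inf_le_right,
    inf_le_left, ?_, ?_⟩
  · obtain ⟨U₁, hU₁, h₁⟩ := isOpenSub_zetaStab hζ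
    obtain ⟨U₂, hU₂, h₂⟩ := hV
    obtain ⟨U₃, hU₃, hle⟩ := (lev q).directed U₁ hU₁ U₂ hU₂
    exact ⟨U₃, hU₃, le_inf ((hle.trans inf_le_right).trans h₂) ((hle.trans inf_le_left).trans h₁)⟩
  · rw [Subgroup.inf_relIndex_left]
    exact not_dvd_of_dvd_pred
      ((Subgroup.relIndex_dvd_index_of_normal (zetaStab hζ) V).trans (zetaStab_index_dvd hζ))

section Torsion

variable {ζ : Om q} (hζ : IsPrimitiveRoot ζ p) (V : Subgroup (GalQ q))

/-- `ζ` as an element of the `V`-module `Ωˣ` -/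
noncomputable def zetaElt : unitsRep ↥V (Om q) :=
  ofU (Units.mk0 ζ (hζ.ne_zero hp.out.ne_zero))

lemma toU_nsmul (m : ℕ) (y : unitsRep ↥V (Om q)) : toU (m • y) = toU y ^ m := by
  induction m with
  | zero => simp
  | succ m ih => rw [succ_nsmul, toU_add, ih, pow_succ]

lemma p_smul_zetaElt : p • zetaElt hζ V = 0 := by
  apply toU_injective
  rw [toU_nsmul, zetaElt, toU_ofU, toU_zero]
  ext
  simpa using hζ.pow_eq_one

lemma zetaElt_ne_zero : zetaElt hζ V ≠ 0 := by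
  intro h
  have h1 := congrArg toU h
  rw [zetaElt, toU_ofU, toU_zero] at h1
  have h2 : ζ = 1 := by simpa using congrArg (fun u : (Om q)ˣ => (u : Om q)) h1
  exact hζ.ne_one hp.out.one_lt h2

lemma exists_eq_nsmul_zetaElt (x : unitsRep ↥V (Om q)) (hx : p • x = 0) :
    ∃ j : ℕ, x = j • zetaElt hζ V := by
  have h1 : ((toU x : (Om q)ˣ) : Om q) ^ p = 1 := by
    have := congrArg toU hx
    rw [toU_nsmul, toU_zero] at this
    simpa using congrArg (fun u : (Om q)ˣ => (u : Om q)) this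
  obtain ⟨j, -, hj⟩ := hζ.eq_pow_of_pow_eq_one h1
  refine ⟨j, ?_⟩
  apply toU_injective
  rw [toU_nsmul, zetaElt, toU_ofU]
  ext
  simpa using hj.symm

lemma zetaElt_fixed (hV : V ≤ zetaStab hζ) (v : ↥V) :
    (unitsRep ↥V (Om q)).ρ v (zetaElt hζ V) = zetaElt hζ V := by
  apply toU_injective
  rw [toU_unitsRep_ρ, zetaElt, toU_ofU]
  ext
  exact (mem_zetaStab hζ).1 (hV v.2)

end Torsion

end Roots

end Fermat.Agent.S55.P2Local71
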