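/-
[P2 = Contract34.LocalRightExact] (helper71), step 1: formal reduction.

`LocalRightExact p q` (right exactness of level `H²` of the local Galois group at `q` on finite
`𝔽_p`-modules, cocycle form, Prelude vocabulary) follows from the local base case
`LocalH3Base p q`: level `H³` of the trivial module `ZMod p` vanishes on a family `𝒱` of open
subgroups of `G_{ℚ_q}` which is cofinal up to prime-to-`p` index.  The reduction is helper3's
abstract `cd_p ≤ 2` package (`CD3`: Sylow + filtration dévissage + lifting of level cocycles).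
-/
import Fermat.Agent.S55.Contract34
import Fermat.Agent.S55.Profin15.Local
import Fermat.Agent.S55.CD3.Devissage

set_option autoImplicit false

open CategoryTheory groupCohomology ExtCitation
open Fermat.Agent.S55.Profin15
open Fermat.Agent.Lib.FrobeniusExists (Qb GQ)

namespace Fermat.Agent.S55.P2Local71

/-- the level structure on the local Galois group at `q` (levels pulled back from `G_ℚ`). -/
noncomputable abbrev locLevels (q : Nat.Primes) : LevelStr (primeLocalGaloisGroup q) :=
  pullLevels (primeLocalToGlobal q)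

/-- **Local base case of `cd_p ≤ 2`.**  There is a family `𝒱` of open subgroups of `G_{ℚ_q}`,
cofinal up to prime-to-`p` index, on which level `H³` of the trivial module `ZMod p` vanishes. -/
def LocalH3Base (p : ℕ) (q : Nat.Primes) : Prop :=
  ∃ 𝒱 : Set (Subgroup (primeLocalGaloisGroup q)),
    (∀ V, CD3.IsOpenSub (locLevels q) V →
      ∃ V' ∈ 𝒱, V' ≤ V ∧ CD3.IsOpenSub (locLevels q) V' ∧ ¬ p ∣ V'.relIndex V) ∧
    ∀ V ∈ 𝒱, ∀ hV : CD3.IsOpenSub (locLevels q) V,
      CD3.H3Vanishes (CD3.restrictLevels (locLevels q) V hV)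
        (Representation.trivial (ZMod p) ↥V (ZMod p))

variable (p : ℕ) [Fact p.Prime] (q : Nat.Primes)

/-- a local representation trivialised by a finite level is smooth for `locLevels q`. -/
lemma isSmoothRep_of_isLocRep (N : Rep.{0} (ZMod p) (primeLocalGaloisGroup q))
    (hN : Contract34.IsLocRep p q N) : CD3.IsSmoothRep (locLevels q) N.ρ := by
  obtain ⟨F, hF, h⟩ := hN
  have := hF
  obtain ⟨U, hU, hle⟩ := exists_allLevel_le F
  intro a
  refine ⟨U.comap (primeLocalToGlobal q), LevelStr.mem_comap_levels.2 ⟨U, hU, rfl⟩, fun s hs => ?_⟩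
  rw [h s (hle hs)]
  rfl

/-- membership in Mathlib's `cocycles₂` in terms of `CD3.d23`. -/
lemma mem_cocycles₂_iff_d23 {G : Type} [Group G] (N : Rep.{0} (ZMod p) G) (f : G × G → N) :
    f ∈ cocycles₂ N ↔ CD3.d23 N.ρ f = 0 := by
  rw [mem_cocycles₂_def]
  constructor
  · intro h
    funext ⟨g, h', j⟩
    simpa using h g h' j
  · intro h g h' j
    simpa using congrFun h (g, h', j)

/-- **P2 from the local base case.** -/
theorem localRightExact_of_base (hbase : LocalH3Base p q) : Contract34.LocalRightExact p q := by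
  classical
  intro M N _ _ hM hN g hg f hf
  obtain ⟨𝒱, hcof, hb⟩ := hbase
  rw [levelCocycles₂_eq, LevelStr.mem_Z₂_iff, mem_cocycles₂_iff_d23] at hf
  obtain ⟨hf0, hfc⟩ := hf
  -- the kernel as a subrepresentation
  let π : M →ₗ[ZMod p] N := g.hom.toLinearMap
  have hπ : ∀ s a, π (M.ρ s a) = N.ρ s (π a) := fun s a => Rep.hom_comm_apply g s a
  let K : Submodule (ZMod p) M := LinearMap.ker π
  have hK : ∀ s, K ≤ K.comap (M.ρ s) := fun s a ha => by
    rw [Submodule.mem_comap, LinearMap.mem_ker, hπ, LinearMap.mem_ker.1 ha, map_zero]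
  let ρK : Representation (ZMod p) (primeLocalGaloisGroup q) K := M.ρ.subrepresentation K hK
  have hsmM : CD3.IsSmoothRep (locLevels q) M.ρ := isSmoothRep_of_isLocRep p q M hM
  have hsmK : CD3.IsSmoothRep (locLevels q) ρK := fun a => by
    obtain ⟨U, hU, h⟩ := hsmM a.1
    exact ⟨U, hU, fun s hs => Subtype.ext (h s hs)⟩
  have : Finite M := Module.finite_of_finite (ZMod p)
  have : Finite K := Finite.of_injective (fun a : K => (a : M)) Subtype.val_injective
  have h3K : CD3.H3Vanishes (locLevels q) ρK :=
    CD3.h3Vanishes_of_trivial_cofinal p 𝒱 hcof hb ρK hsmK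
  obtain ⟨c', hc'c, hc'0, hc'⟩ := CD3.exists_cocycle_lift ρK M.ρ N.ρ K.subtype π
    (fun _ _ => rfl) hπ Subtype.val_injective hg (by simp [K]) hsmM h3K f hfc hf0
  refine ⟨c', ?_, ?_⟩
  · rw [levelCocycles₂_eq, LevelStr.mem_Z₂_iff, mem_cocycles₂_iff_d23]
    exact ⟨hc'0, hc'c⟩
  · have : (fun x => g.hom (c' x) - f x) = 0 := funext fun x => by
      have := hc' x
      simp only [Pi.zero_apply, sub_eq_zero]
      exact this
    rw [this]
    exact Submodule.zero_mem _

end Fermat.Agent.S55.P2Local71
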