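/-
[P2] (helper71), step 2b: the local base case `LocalH3Base p q` from two named arithmetic inputs:

* `LocalTateH3 q`  : `H³(Gal(L/K), Lˣ) = 0` for all finite Galois layers `L/K` of `Ω/ℚ_q`
  (helper51's G-field form: the group `V ⧸ U` acting on the fixed field `Ω^U`);
* `LocalBrDiv p q` : the `p`-primary part of level `H²(V, Ωˣ)` (`= Br(K)(p)`) is `p`-divisible.

Proof: Kummer dévissage `CDKummer71.h3Vanishes_trivial_zmod` for `E = Ωˣ` over every open subgroup
`V` fixing a primitive `p`-th root of unity `ζ`; level `H³(V, Ωˣ) = 0` from the finite levels by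
`CDKummer71.h3Vanishes_of_isZero_H3` and `LocDev51.quotIso`.
-/
import Fermat.Agent.S55.P2Local71.Model
import Fermat.Agent.S55.P2Local71.Reduce
import Fermat.Agent.S55.CDKummer71.LevelBridge

set_option autoImplicit false

open CategoryTheory groupCohomology
open Fermat.Agent.S55.Profin15
open Fermat.Agent.S55.LocDev51
open Fermat.Agent.S55.CDKummer71

namespace Fermat.Agent.S55.P2Local71

attribute [local instance] Units.mulDistribMulActionRight
attribute [local instance] quotAction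

variable (p : ℕ) [hp : Fact p.Prime] (q : ℕ) [Fact q.Prime]

/-- **(H-LT)** `H³` of the multiplicative group vanishes on all finite layers. -/
def LocalTateH3 : Prop :=
  ∀ (V : Subgroup (GalQ q)) (hV : CD3.IsOpenSub (lev q) V) (U : Subgroup ↥V)
    (hU : U ∈ (CD3.restrictLevels (lev q) V hV).levels),
    letI := (CD3.restrictLevels (lev q) V hV).normal U hU
    Limits.IsZero (groupCohomology (unitsRep (↥V ⧸ U) (fixedField ↥V (Om q) U)) 3)

/-- **(H-LD)** `p`-primary classes of level `H²(V, Ωˣ)` are `p`-divisible. -/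
def LocalBrDiv : Prop :=
  ∀ (V : Subgroup (GalQ q)) (hV : CD3.IsOpenSub (lev q) V)
    (c : ↥V × ↥V → unitsRep ↥V (Om q)),
    (CD3.restrictLevels (lev q) V hV).IsConst₂ c → dd23 (unitsRep ↥V (Om q)).ρ c = 0 →
    (∃ a : ℕ, ∃ e : ↥V → unitsRep ↥V (Om q), (CD3.restrictLevels (lev q) V hV).IsConst₁ e ∧
      dd12 (unitsRep ↥V (Om q)).ρ e = p ^ a • c) →
    ∃ (c' : ↥V × ↥V → unitsRep ↥V (Om q)) (e : ↥V → unitsRep ↥V (Om q)),
      (CD3.restrictLevels (lev q) V hV).IsConst₂ c' ∧ dd23 (unitsRep ↥V (Om q)).ρ c' = 0 ∧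
      (CD3.restrictLevels (lev q) V hV).IsConst₁ e ∧ c = p • c' + dd12 (unitsRep ↥V (Om q)).ρ e

variable {p q}

/-- level `H³(V, Ωˣ) = 0` from the finite layers -/
theorem h3Vanishes_units (hLT : LocalTateH3 q) (V : Subgroup (GalQ q))
    (hV : CD3.IsOpenSub (lev q) V) :
    CD3.H3Vanishes (CD3.restrictLevels (lev q) V hV) (unitsRep ↥V (Om q)).ρ := by
  refine h3Vanishes_of_isZero_H3 _ (unitsRep ↥V (Om q)) (isSmoothRep_units V hV) fun U hU => ?_
  have hn := (CD3.restrictLevels (lev q) V hV).normal U hU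
  exact Limits.IsZero.of_iso (hLT V hV U hU)
    ((groupCohomology.functor ℤ (↥V ⧸ U) 3).mapIso (quotIso ↥V (Om q) U))

/-- **The local base case over `(q : ℕ)`.** -/
theorem localH3Base_aux (hLT : LocalTateH3 q) (hLD : LocalBrDiv p q) :
    ∃ 𝒱 : Set (Subgroup (GalQ q)),
      (∀ V, CD3.IsOpenSub (lev q) V →
        ∃ V' ∈ 𝒱, V' ≤ V ∧ CD3.IsOpenSub (lev q) V' ∧ ¬ p ∣ V'.relIndex V) ∧
      ∀ V ∈ 𝒱, ∀ hV : CD3.IsOpenSub (lev q) V,
        CD3.H3Vanishes (CD3.restrictLevels (lev q) V hV)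
          (Representation.trivial (ZMod p) ↥V (ZMod p)) := by
  obtain ⟨ζ, hζ⟩ := exists_primitiveRoot q p
  refine ⟨{W : Subgroup (GalQ q) | W ≤ zetaStab hζ}, cofinal_zetaStab hζ, fun V hVζ hV => ?_⟩
  intro f hf hcoc
  exact h3Vanishes_trivial_zmod (CD3.restrictLevels (lev q) V hV) (unitsRep ↥V (Om q)).ρ p
    (isSmoothRep_units V hV) (units_divisible V hp.out.pos)
    (fun f hf hcoc _ => h3Vanishes_units hLT V hV f hf hcoc)
    (hLD V hV) (zetaElt hζ V) (p_smul_zetaElt hζ V) (zetaElt_ne_zero hζ V)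
    (exists_eq_nsmul_zetaElt hζ V) (zetaElt_fixed hζ V hVζ) f hf hcoc

/-- **P2 from the two local arithmetic inputs** (literal `Contract34` shape). -/
theorem localRightExact_of_inputs (p : ℕ) [Fact p.Prime] (q : Nat.Primes)
    (hLT : @LocalTateH3 (q : ℕ) ⟨q.2⟩) (hLD : @LocalBrDiv p (q : ℕ) ⟨q.2⟩) :
    Contract34.LocalRightExact p q := by
  have : Fact (q : ℕ).Prime := ⟨q.2⟩
  exact localRightExact_of_base p q (localH3Base_aux hLT hLD)

end Fermat.Agent.S55.P2Local71
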