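/-
[P2] (helper71), step 3: the two inputs `LocalTateH3`, `LocalBrDiv` of `Base.lean` from ONE
statement of local class field theory, the existence of local fundamental classes
(`LocalFund q`, in helper51's G-field form), using the unconditional Tate package
`TateNak43.Uncond` and the `p`-cyclotomic tower `CycloTower46.Local`.

Result: `localRightExact_of_fund : LocalFund q → Contract34.LocalRightExact p q`.
-/
import Fermat.Agent.S55.P2Local71.Base
import Fermat.Agent.S55.TateNak43.Uncond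
import Fermat.Agent.S55.CDKummer71.H2Div
import Fermat.Agent.S55.CycloTower46.Local

set_option autoImplicit false

open CategoryTheory groupCohomology
open Fermat.Agent.S55.Profin15
open Fermat.Agent.S55.LocDev51
open Fermat.Agent.S55.CDKummer71

namespace Fermat.Agent.S55.P2Local71

attribute [local instance] Units.mulDistribMulActionRight
attribute [local instance] quotAction

/-- transport of "cyclic, annihilator of the generator inside `N ℤ`" along an additive
equivalence -/
lemma cyc_transport {X Y : Type*} [AddCommGroup X] [AddCommGroup Y] (e : X ≃+ Y) (N : ℕ) (γ : X)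
    (hgen : ∀ x : X, ∃ j : ℤ, x = j • γ) (hord : ∀ j : ℤ, j • γ = 0 → (N : ℤ) ∣ j) :
    (∀ y : Y, ∃ j : ℤ, y = j • e γ) ∧ ∀ j : ℤ, j • e γ = 0 → (N : ℤ) ∣ j := by
  refine ⟨fun y => ?_, fun j hj => hord j ?_⟩
  · obtain ⟨j, hj⟩ := hgen (e.symm y)
    exact ⟨j, by rw [← map_zsmul, ← hj, e.apply_symm_apply]⟩
  · apply e.injective
    rw [map_zsmul, hj, map_zero]

variable (q : ℕ) [Fact q.Prime]

/-- **(LocalFund)** every finite layer `(V ⧸ U, Ω^U)` of the local field has a fundamental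
`2`-cocycle in the sense of `TateNak43` (for every subgroup `H`, `H¹(H, Lˣ) = 0` and `H²(H, Lˣ)`
is cyclic of order `|H|` generated by the restriction of the class). -/
def LocalFund : Prop :=
  ∀ (V : Subgroup (GalQ q)) (hV : CD3.IsOpenSub (lev q) V) (U : Subgroup ↥V)
    (hU : U ∈ (CD3.restrictLevels (lev q) V hV).levels),
    letI := (CD3.restrictLevels (lev q) V hV).normal U hU
    letI := (CD3.restrictLevels (lev q) V hV).finiteIndex U hU
    letI : Finite (↥V ⧸ U) := Subgroup.finite_quotient_of_finiteIndex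
    letI : Fintype (↥V ⧸ U) := Fintype.ofFinite _
    ∃ σ : cocycles₂ (unitsRep (↥V ⧸ U) (fixedField ↥V (Om q) U)),
      TateNak43.IsFundamentalCocycle (unitsRep (↥V ⧸ U) (fixedField ↥V (Om q) U)) σ

variable {q}

/-- `LocalTateH3` from local fundamental classes and Tate's theorem. -/
theorem localTateH3_of_fund (hF : LocalFund q) : LocalTateH3 q := by
  intro V hV U hU
  have hn := (CD3.restrictLevels (lev q) V hV).normal U hU
  have hfi := (CD3.restrictLevels (lev q) V hV).finiteIndex U hU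
  have hfin : Finite (↥V ⧸ U) := Subgroup.finite_quotient_of_finiteIndex
  let _ : Fintype (↥V ⧸ U) := Fintype.ofFinite _
  obtain ⟨σ, hσ⟩ := hF V hV U hU
  exact TateNak43.Uncond.isZero_H3_top _ σ hσ

/-- the finite-level `H²(V ⧸ U, (Ωˣ)^U)` is cyclic of order `[V : U]`. -/
theorem isCyclicH2Level_of_fund (hF : LocalFund q) (V : Subgroup (GalQ q))
    (hV : CD3.IsOpenSub (lev q) V) (U : Subgroup ↥V)
    (hU : U ∈ (CD3.restrictLevels (lev q) V hV).levels) :
    letI := (CD3.restrictLevels (lev q) V hV).normal U hU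
    IsCyclicH2Level (unitsRep ↥V (Om q)) U (Nat.card (↥V ⧸ U)) := by
  have hn := (CD3.restrictLevels (lev q) V hV).normal U hU
  have hfi := (CD3.restrictLevels (lev q) V hV).finiteIndex U hU
  have hfin : Finite (↥V ⧸ U) := Subgroup.finite_quotient_of_finiteIndex
  let _ : Fintype (↥V ⧸ U) := Fintype.ofFinite _
  obtain ⟨σ, hσ⟩ := hF V hV U hU
  let Ψ := TateNak43.Uncond.resTopIso (unitsRep (↥V ⧸ U) (fixedField ↥V (Om q) U)) 2
  let Φ := (groupCohomology.functor ℤ (↥V ⧸ U) 2).mapIso (quotIso ↥V (Om q) U)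
  let E := (Ψ ≪≫ Φ.symm).toLinearEquiv.toAddEquiv
  have hgen0 : ∀ x, ∃ j : ℤ, x = j • TateNak43.fundClass _ σ ⊤ := fun x => by
    obtain ⟨a, ha⟩ := hσ.hgen ⊤ x
    exact ⟨a, ha.trans (TateNak43.modSMul_eq_zsmul _ _)⟩
  have hord0 : ∀ j : ℤ, j • TateNak43.fundClass _ σ ⊤ = 0 → ((Nat.card (↥V ⧸ U) : ℕ) : ℤ) ∣ j :=
    fun j hj => by
      obtain ⟨b, hb⟩ := hσ.hord ⊤ j ((TateNak43.modSMul_eq_zsmul _ _).trans hj)
      rw [Subgroup.card_top] at hb
      exact ⟨b, hb⟩
  obtain ⟨h1, h2⟩ := cyc_transport E _ _ hgen0 hord0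
  exact ⟨E (TateNak43.fundClass _ σ ⊤), h1, h2⟩

/-- restricted levels of `V` with arbitrarily large `p`-part of the index, below any given
restricted level (the `p`-cyclotomic tower). -/
theorem exists_level_pow_dvd {p : ℕ} (hp : p.Prime) (V : Subgroup (GalQ q))
    (hV : CD3.IsOpenSub (lev q) V) (U : Subgroup ↥V)
    (hU : U ∈ (CD3.restrictLevels (lev q) V hV).levels) (r : ℕ) :
    ∃ U' : Subgroup ↥V, U' ∈ (CD3.restrictLevels (lev q) V hV).levels ∧ U' ≤ U ∧
      p ^ r ∣ Nat.card (↥V ⧸ U') := by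
  obtain ⟨U₁, hU₁, hU₁V, rfl⟩ := hU
  have hVfi : V.FiniteIndex := hV.finiteIndex
  obtain ⟨n₀, hn₀⟩ := CycloTower46.Local.exists_pow_dvd_index_levelStab q hp
    (r + padicValNat p V.index)
  have hdvd : p ^ r ∣ (CycloTower46.Local.levelStab q (p ^ n₀) ⊓ V).relIndex V :=
    CycloTower46.Index.pow_dvd_relIndex hp _ V hVfi.index_ne_zero (hn₀ n₀ le_rfl)
  -- a level inside `levelStab`
  have hfd : FiniteDimensional ℚ (CycloTower46.Global.cycloField (p ^ n₀)) :=
    CycloTower46.Global.finiteDimensional_cycloField (pow_ne_zero _ hp.ne_zero)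
  obtain ⟨U₀, hU₀, hle₀⟩ := exists_allLevel_le (CycloTower46.Global.cycloField (p ^ n₀))
  have hU₂ : U₀.comap (localGaloisToGlobal q) ∈ (lev q).levels :=
    LevelStr.mem_comap_levels.2 ⟨U₀, hU₀, rfl⟩
  have hle₂ : U₀.comap (localGaloisToGlobal q) ≤ CycloTower46.Local.levelStab q (p ^ n₀) :=
    Subgroup.comap_mono hle₀
  obtain ⟨W, hW, hleW⟩ := (lev q).directed U₁ hU₁ _ hU₂
  have hWU₁ : W ≤ U₁ := hleW.trans inf_le_left
  have hWV : W ≤ V := hWU₁.trans hU₁V
  refine ⟨W.subgroupOf V, ⟨W, hW, hWV, rfl⟩, ?_, ?_⟩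
  · intro x hx
    rw [Subgroup.mem_subgroupOf] at hx ⊢
    exact hWU₁ hx
  · have hn : (W.subgroupOf V).Normal :=
      (CD3.restrictLevels (lev q) V hV).normal _ ⟨W, hW, hWV, rfl⟩
    rw [← Subgroup.index_eq_card]
    refine hdvd.trans ?_
    exact Subgroup.relIndex_dvd_of_le_left V
      (le_inf ((hleW.trans inf_le_right).trans hle₂) hWV)

variable (p : ℕ) [hp : Fact p.Prime]

/-- `LocalBrDiv` from local fundamental classes. -/
theorem localBrDiv_of_fund (hF : LocalFund q) : LocalBrDiv p q := by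
  rintro V hV c hc hcoc ⟨a, e, he, hec⟩
  refine exists_pdiv_of_cofinal_cyclic_H2 (CD3.restrictLevels (lev q) V hV) (unitsRep ↥V (Om q))
    (isSmoothRep_units V hV) p a (fun U hU => ?_) hp.out.pos c hc hcoc e he hec
  obtain ⟨U', hU', hle, hdvd⟩ := exists_level_pow_dvd hp.out V hV U hU (a + 1)
  exact ⟨U', hU', hle, Nat.card (↥V ⧸ U'), hdvd, isCyclicH2Level_of_fund hF V hV U' hU'⟩

/-- **P2 from local fundamental classes** (literal `Contract34` shape). -/
theorem localRightExact_of_fund (p : ℕ) [Fact p.Prime] (q : Nat.Primes)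
    (hF : @LocalFund (q : ℕ) ⟨q.2⟩) : Contract34.LocalRightExact p q := by
  have : Fact (q : ℕ).Prime := ⟨q.2⟩
  exact localRightExact_of_inputs p q (localTateH3_of_fund hF) (localBrDiv_of_fund p hF)

end Fermat.Agent.S55.P2Local71
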