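/-
[P2] (helper71), step 4: the consumer side of the level adapter (helper51's 22g).

Per finite layer `C := unitsRep (V ⧸ U) (Ω^U)` of the local model, P2 only uses
  (i)  `H³(V ⧸ U, C) = 0`,
  (ii) `H²(V ⧸ U, C)` cyclic, generated by a class whose annihilator lies in `|V ⧸ U| ℤ`.
Both transport along arbitrary isomorphisms of cohomology groups, so they follow from the same
statements for the subgroup layers `(D, E)`, `D ≤ Gal(E/ℚ_q)`, `E/ℚ_q` finite Galois
(`AbsLayerCoh q`), through the adapter `LayerAdapt q`.  `AbsLayerCoh q` follows from the absolute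
local fundamental class (`AbsFund q`, or one class of full order: `AbsClass q`).
-/
import Fermat.Agent.S55.P2Local71.Inputs
import Fermat.Agent.S55.LocDev51.LFBase
import Fermat.Agent.S55.TateNak43.LocalH3

set_option autoImplicit false

open CategoryTheory groupCohomology
open Fermat.Agent.S55.Profin15
open Fermat.Agent.S55.LocDev51
open Fermat.Agent.S55.CDKummer71
open Fermat.Agent.S55.LocField17

namespace Fermat.Agent.S55.P2Local71

attribute [local instance] Units.mulDistribMulActionRight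
attribute [local instance] quotAction

/-- an additive group is cyclic, generated by an element whose annihilator lies in `N ℤ` -/
def IsCyc (X : Type*) [AddCommGroup X] (N : ℕ) : Prop :=
  ∃ γ : X, (∀ x : X, ∃ j : ℤ, x = j • γ) ∧ ∀ j : ℤ, j • γ = 0 → (N : ℤ) ∣ j

lemma IsCyc.of_addEquiv {X Y : Type*} [AddCommGroup X] [AddCommGroup Y] (e : X ≃+ Y) {N : ℕ}
    (h : IsCyc X N) : IsCyc Y N := by
  obtain ⟨γ, hgen, hord⟩ := h
  obtain ⟨h1, h2⟩ := cyc_transport e N γ hgen hord
  exact ⟨e γ, h1, h2⟩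

lemma IsCyc.congr_card {X : Type*} [AddCommGroup X] {N N' : ℕ} (h : IsCyc X N) (e : N = N') :
    IsCyc X N' := e ▸ h

variable (q : ℕ) [Fact q.Prime]

/-- **(LayerCoh)** the two cohomological facts P2 uses on every finite layer. -/
def LocalLayerCoh : Prop :=
  ∀ (V : Subgroup (GalQ q)) (hV : CD3.IsOpenSub (lev q) V) (U : Subgroup ↥V)
    (hU : U ∈ (CD3.restrictLevels (lev q) V hV).levels),
    letI := (CD3.restrictLevels (lev q) V hV).normal U hU
    Limits.IsZero (groupCohomology (unitsRep (↥V ⧸ U) (fixedField ↥V (Om q) U)) 3) ∧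
    IsCyc (groupCohomology (unitsRep (↥V ⧸ U) (fixedField ↥V (Om q) U)) 2) (Nat.card (↥V ⧸ U))

variable {q}

theorem localTateH3_of_layerCoh (h : LocalLayerCoh q) : LocalTateH3 q :=
  fun V hV U hU => (h V hV U hU).1

theorem isCyclicH2Level_of_layerCoh (h : LocalLayerCoh q) (V : Subgroup (GalQ q))
    (hV : CD3.IsOpenSub (lev q) V) (U : Subgroup ↥V)
    (hU : U ∈ (CD3.restrictLevels (lev q) V hV).levels) :
    letI := (CD3.restrictLevels (lev q) V hV).normal U hU
    IsCyclicH2Level (unitsRep ↥V (Om q)) U (Nat.card (↥V ⧸ U)) := by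
  have hn := (CD3.restrictLevels (lev q) V hV).normal U hU
  let Φ := (groupCohomology.functor ℤ (↥V ⧸ U) 2).mapIso (quotIso ↥V (Om q) U)
  exact IsCyc.of_addEquiv Φ.symm.toLinearEquiv.toAddEquiv (h V hV U hU).2

theorem localBrDiv_of_layerCoh (p : ℕ) [hp : Fact p.Prime] (h : LocalLayerCoh q) :
    LocalBrDiv p q := by
  rintro V hV c hc hcoc ⟨a, e, he, hec⟩
  refine exists_pdiv_of_cofinal_cyclic_H2 (CD3.restrictLevels (lev q) V hV) (unitsRep ↥V (Om q))
    (isSmoothRep_units V hV) p a (fun U hU => ?_) hp.out.pos c hc hcoc e he hec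
  obtain ⟨U', hU', hle, hdvd⟩ := exists_level_pow_dvd hp.out V hV U hU (a + 1)
  exact ⟨U', hU', hle, Nat.card (↥V ⧸ U'), hdvd, isCyclicH2Level_of_layerCoh h V hV U' hU'⟩

/-- **P2 from the layer cohomology** (literal `Contract34` shape). -/
theorem localRightExact_of_layerCoh (p : ℕ) [Fact p.Prime] (q : Nat.Primes)
    (h : @LocalLayerCoh (q : ℕ) ⟨q.2⟩) : Contract34.LocalRightExact p q := by
  have : Fact (q : ℕ).Prime := ⟨q.2⟩
  exact localRightExact_of_inputs p q (localTateH3_of_layerCoh h) (localBrDiv_of_layerCoh p h)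

/-! ### The adapter to subgroup layers of absolute finite Galois extensions -/

variable (q : ℕ) [Fact q.Prime]

/-- **(22g, helper51)** every finite layer of the local model is, cohomologically, a subgroup
layer `(D, E)` of a finite Galois extension `E/ℚ_q`, with `|D| = |V ⧸ U|`. -/
def LayerAdapt : Prop :=
  ∀ (V : Subgroup (GalQ q)) (hV : CD3.IsOpenSub (lev q) V) (U : Subgroup ↥V)
    (hU : U ∈ (CD3.restrictLevels (lev q) V hV).levels),
    letI := (CD3.restrictLevels (lev q) V hV).normal U hU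
    ∃ (E : LF q) (_ : FiniteDimensional ℚ_[q] E) (_ : IsGalois ℚ_[q] E)
      (D : Subgroup (E ≃ₐ[ℚ_[q]] E)), Nat.card D = Nat.card (↥V ⧸ U) ∧
      ∀ n, Nonempty (groupCohomology (unitsRep (↥V ⧸ U) (fixedField ↥V (Om q) U)) n ≅
        groupCohomology (unitsRep D E) n)

/-- **(absolute layers)** `H³(D, Eˣ) = 0` and `H²(D, Eˣ)` cyclic of order `|D|`, for every
subgroup `D` of the Galois group of a finite Galois extension `E/ℚ_q`. -/
def AbsLayerCoh : Prop :=
  ∀ (E : LF q) [FiniteDimensional ℚ_[q] E] [IsGalois ℚ_[q] E] (D : Subgroup (E ≃ₐ[ℚ_[q]] E)),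
    Limits.IsZero (groupCohomology (unitsRep D E) 3) ∧
    IsCyc (groupCohomology (unitsRep D E) 2) (Nat.card D)

variable {q}

theorem localLayerCoh_of_adapt (hA : LayerAdapt q) (hF : AbsLayerCoh q) : LocalLayerCoh q := by
  intro V hV U hU
  have hn := (CD3.restrictLevels (lev q) V hV).normal U hU
  obtain ⟨E, hfd, hgal, D, hcard, hiso⟩ := hA V hV U hU
  obtain ⟨h3, h2⟩ := hF E D
  obtain ⟨e3⟩ := hiso 3
  obtain ⟨e2⟩ := hiso 2
  exact ⟨Limits.IsZero.of_iso h3 e3,
    (IsCyc.of_addEquiv e2.symm.toLinearEquiv.toAddEquiv h2).congr_card hcard⟩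

/-- **P2 from the level adapter and the absolute layers.** -/
theorem localRightExact_of_adapt (p : ℕ) [Fact p.Prime] (q : Nat.Primes)
    (hA : @LayerAdapt (q : ℕ) ⟨q.2⟩) (hF : @AbsLayerCoh (q : ℕ) ⟨q.2⟩) :
    Contract34.LocalRightExact p q := by
  have : Fact (q : ℕ).Prime := ⟨q.2⟩
  exact localRightExact_of_layerCoh p q (localLayerCoh_of_adapt hA hF)

/-! ### The absolute layers from the absolute local fundamental class -/

variable (q : ℕ) [Fact q.Prime]

/-- **(AbsFund)** a fundamental cocycle for `(Gal(E/ℚ_q), Eˣ)`, `E/ℚ_q` finite Galois. -/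
def AbsFund : Prop :=
  ∀ (E : LF q) [FiniteDimensional ℚ_[q] E] [IsGalois ℚ_[q] E],
    ∃ σ : cocycles₂ (unitsRep (E ≃ₐ[ℚ_[q]] E) E),
      TateNak43.IsFundamentalCocycle (unitsRep (E ≃ₐ[ℚ_[q]] E) E) σ

/-- **(AbsClass)** one class of `H²(Gal(E/ℚ_q), Eˣ)` whose order is divisible by `[E : ℚ_q]`
(the lower bound of local class field theory), `E/ℚ_q` finite Galois. -/
def AbsClass : Prop :=
  ∀ (E : LF q) [FiniteDimensional ℚ_[q] E] [IsGalois ℚ_[q] E],
    ∃ x : groupCohomology (unitsRep (E ≃ₐ[ℚ_[q]] E) E) 2,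
      Nat.card (E ≃ₐ[ℚ_[q]] E) ∣ addOrderOf x

/-- the same with Mathlib's `Rep.ofAlgebraAutOnUnits` -/
def AbsClass' : Prop :=
  ∀ (E : LF q) [FiniteDimensional ℚ_[q] E] [IsGalois ℚ_[q] E],
    ∃ x : groupCohomology (Rep.ofAlgebraAutOnUnits ℚ_[q] E) 2,
      Module.finrank ℚ_[q] E ∣ addOrderOf x

variable {q}

theorem absFund_of_absClass (h : AbsClass q) : AbsFund q := by
  intro E _ _
  obtain ⟨x, hx⟩ := h E
  obtain ⟨σ, -, hσ⟩ :=
    TateNak43.LocalH3.exists_isFundamentalCocycle_unitsRep (isLocalGField_base E) x hx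
  exact ⟨σ, hσ⟩

theorem absClass_of_absClass' (h : AbsClass' q) : AbsClass q := by
  intro E _ _
  obtain ⟨x, hx⟩ := h E
  let e := (cohomologyEquivOfIso (unitsRepIsoField ℚ_[q] E) 2).symm
  refine ⟨e x, ?_⟩
  rw [IsGalois.card_aut_eq_finrank]
  have : addOrderOf (e x) = addOrderOf x :=
    AddEquiv.addOrderOf_eq e.toAddEquiv x
  rwa [this]

theorem absLayerCoh_of_absFund (h : AbsFund q) : AbsLayerCoh q := by
  intro E _ _ D
  obtain ⟨σ, hσ⟩ := h E
  refine ⟨TateNak43.Uncond.isZero_H3 _ σ hσ D, TateNak43.fundClass _ σ D, fun x => ?_,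
    fun j hj => ?_⟩
  · obtain ⟨a, ha⟩ := hσ.hgen D x
    exact ⟨a, ha.trans (TateNak43.modSMul_eq_zsmul _ _)⟩
  · obtain ⟨b, hb⟩ := hσ.hord D j ((TateNak43.modSMul_eq_zsmul _ _).trans hj)
    exact ⟨b, hb⟩

/-- **P2 from the level adapter and the absolute local fundamental class.** -/
theorem localRightExact_of_adapt_absClass (p : ℕ) [Fact p.Prime] (q : Nat.Primes)
    (hA : @LayerAdapt (q : ℕ) ⟨q.2⟩) (hC : @AbsClass (q : ℕ) ⟨q.2⟩) :
    Contract34.LocalRightExact p q := by
  have : Fact (q : ℕ).Prime := ⟨q.2⟩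
  exact localRightExact_of_adapt p q hA (absLayerCoh_of_absFund (absFund_of_absClass hC))

end Fermat.Agent.S55.P2Local71
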