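/-
[(A4)/P5, second route] (helper71): `|Br(K)[n]| ≤ n` for every finite `K/ℚ_q` from the cyclicity
of the finite layers `H²(V ⧸ U, (Ω^U)ˣ)` alone — hence `KummerBr95.BrTorsionBound q p` from the
absolute local class `P2Local71.AbsClass' q` (the same single input as P2), with no invariant map;
with helper51's `LocDev51.absClass'` it is unconditional: `brTorsionBound`.
-/
import Fermat.Agent.S55.P2Local71.Layer
import Fermat.Agent.S55.CDKummer71.H2Torsion
import Fermat.Agent.S55.KummerBr95.LocalBase
import Fermat.Agent.S55.LocDev51.LayerAdaptP2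
import Fermat.Agent.S55.LocDev51.AbsClass

set_option autoImplicit false

open CategoryTheory groupCohomology
open Fermat.Agent.S55.Profin15
open Fermat.Agent.S55.LocDev51
open Fermat.Agent.S55.CDKummer71

namespace Fermat.Agent.S55.P2Local71

attribute [local instance] Units.mulDistribMulActionRight
attribute [local instance] quotAction

section Restrict

variable {q : ℕ} [Fact q.Prime]

/-- the `n`-torsion of level `H²(V, Ωˣ)` has at most `n` elements, `V` open in `G_{ℚ_q}`. -/
theorem brTorsion_restrict (hL : LocalLayerCoh q) (V : Subgroup (GalQ q))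
    (hV : CD3.IsOpenSub (lev q) V) (n : ℕ) (hn : 0 < n) :
    Finite ↥(Submodule.torsionBy ℤ
        ((CD3.restrictLevels (lev q) V hV).H2 (unitsRep ↥V (Om q))) (n : ℤ)) ∧
      Nat.card ↥(Submodule.torsionBy ℤ
        ((CD3.restrictLevels (lev q) V hV).H2 (unitsRep ↥V (Om q))) (n : ℤ)) ≤ n :=
  card_torsionBy_H2_le _ (isSmoothRep_units V hV) n hn fun U hU => by
    have hn' := (CD3.restrictLevels (lev q) V hV).normal U hU
    obtain ⟨γ, hγ, -⟩ := isCyclicH2Level_of_layerCoh hL V hV U hU
    exact ⟨U, hn', hU, le_rfl, γ, hγ⟩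

end Restrict

/-- transport of a torsion bound along an additive equivalence (arbitrary `ℤ`-module
structures) -/
lemma torsionBy_card_transport {X Y : Type*} [AddCommGroup X] [AddCommGroup Y] [Module ℤ X]
    [Module ℤ Y] (e : X ≃+ Y) (a : ℤ) (n : ℕ)
    (h : Finite ↥(Submodule.torsionBy ℤ Y a) ∧ Nat.card ↥(Submodule.torsionBy ℤ Y a) ≤ n) :
    Finite ↥(Submodule.torsionBy ℤ X a) ∧ Nat.card ↥(Submodule.torsionBy ℤ X a) ≤ n := by
  let L : X ≃ₗ[ℤ] Y := e.toIntLinearEquiv
  let E : ↥(Submodule.torsionBy ℤ X a) ≃ ↥(Submodule.torsionBy ℤ Y a) :=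
    Equiv.subtypeEquiv L.toEquiv (fun x => by
      show x ∈ Submodule.torsionBy ℤ X a ↔ L x ∈ Submodule.torsionBy ℤ Y a
      rw [Submodule.mem_torsionBy_iff, Submodule.mem_torsionBy_iff]
      constructor
      · intro hx
        rw [← L.map_smul, hx, map_zero]
      · intro hx
        apply L.injective
        rw [L.map_smul, hx, map_zero])
  have := h.1
  exact ⟨Finite.of_equiv _ E.symm, (Nat.card_congr E).le.trans h.2⟩

section Adapter

open Fermat.Agent.S55.KummerBr95 Fermat.Agent.S55.LevelScalars13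

variable (q : ℕ) [Fact q.Prime] (K : IntermediateField ℚ_[q] (PadicAlgCl q))
  [FiniteDimensional ℚ_[q] K]

/-- `lev q` has the Krull topology (helper95's `pullLevels_equiv`, restated over `q : ℕ`) -/
theorem lev_equiv_galLevels : LevelEquiv (lev q) (galLevels ℚ_[q] (PadicAlgCl q)) :=
  pullLevels_equiv ⟨q, Fact.out⟩

/-- `G_K` is open for `lev q` -/
lemma isOpenSub_fixingSubgroup_lev : CD3.IsOpenSub (lev q) K.fixingSubgroup := by
  obtain ⟨U, hU, hle⟩ := exists_galLevel_le (K := ℚ_[q]) (Ω := PadicAlgCl q) K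
  obtain ⟨W, hW, hWU⟩ := (lev_equiv_galLevels q).2 U hU
  exact ⟨W, hW, hWU.trans hle⟩

/-- the restricted levels of `lev q` on `G_K` are the Krull levels of `Gal(Ω/K)` -/
theorem restrictLev_equiv :
    LevelEquiv (CD3.restrictLevels (lev q) K.fixingSubgroup (isOpenSub_fixingSubgroup_lev q K))
      ((galLevels K (PadicAlgCl q)).comap (fixHom K)) :=
  (comap_subtype_equiv_restrictLevelsCD3 (lev q) K.fixingSubgroup
      (isOpenSub_fixingSubgroup_lev q K)).symm.trans
    (((lev_equiv_galLevels q).comap K.fixingSubgroup.subtype).trans (galLevels_baseChange K))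

/-- the two models of the `G_K`-module `Ωˣ` -/
noncomputable def unitsToRes :
    (unitsRep ↥K.fixingSubgroup (Om q)) ≃+
      (Rep.res (fixHom K) (galUnits K (PadicAlgCl q))) :=
  AddEquiv.refl (Additive (PadicAlgCl q)ˣ)

omit [FiniteDimensional ℚ_[q] K] in
theorem isAddEquivariant_unitsToRes :
    IsAddEquivariant (unitsToRes q K).toAddMonoidHom := fun _ _ => rfl

/-- `Br(K)` (Krull levels of `Gal(Ω/K)`) is the level `H²` of `G_K ≤ G_{ℚ_q}` with the levels
restricted from `lev q`. -/
noncomputable def brEquiv :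
    (galLevels K (PadicAlgCl q)).H2 (galUnits K (PadicAlgCl q)) ≃+
      (CD3.restrictLevels (lev q) K.fixingSubgroup (isOpenSub_fixingSubgroup_lev q K)).H2
        (unitsRep ↥K.fixingSubgroup (Om q)) :=
  ((resEquiv₂ (galLevels K (PadicAlgCl q)) (IntermediateField.fixingSubgroupEquiv K)
      (galUnits K (PadicAlgCl q))).toAddEquiv.trans
    ((restrictLev_equiv q K).symm.H2Equiv
      (Rep.res (fixHom K) (galUnits K (PadicAlgCl q)))).toAddEquiv).trans
    (addH2equiv _ (unitsToRes q K) (isAddEquivariant_unitsToRes q K)).symm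

/-- **`|Br(K)[n]| ≤ n`** from the layer cohomology. -/
theorem brTorsion_le (hL : LocalLayerCoh q) (n : ℕ) (hn : 0 < n) :
    Finite ↥(Submodule.torsionBy ℤ
        ((galLevels K (PadicAlgCl q)).H2 (galUnits K (PadicAlgCl q))) (n : ℤ)) ∧
      Nat.card ↥(Submodule.torsionBy ℤ
        ((galLevels K (PadicAlgCl q)).H2 (galUnits K (PadicAlgCl q))) (n : ℤ)) ≤ n :=
  torsionBy_card_transport (brEquiv q K) (n : ℤ) n
    (brTorsion_restrict hL K.fixingSubgroup (isOpenSub_fixingSubgroup_lev q K) n hn)

end Adapter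

section Final

open Fermat.Agent.S55.KummerBr95

/-- **`BrTorsionBound` from the layer cohomology.** -/
theorem brTorsionBound_of_layerCoh (q : Nat.Primes) (p : ℕ) [Fact p.Prime]
    (hL : @LocalLayerCoh (q : ℕ) ⟨q.2⟩) : BrTorsionBound q p := by
  have : Fact (q : ℕ).Prime := ⟨q.2⟩
  intro K hK
  exact brTorsion_le (q : ℕ) K hL p (Fact.out : p.Prime).pos

/-- **`BrTorsionBound` from the absolute local class** (`unitsRep` form). -/
theorem brTorsionBound_of_absClass (q : Nat.Primes) (p : ℕ) [Fact p.Prime]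
    (hC : @AbsClass (q : ℕ) ⟨q.2⟩) : BrTorsionBound q p := by
  have : Fact (q : ℕ).Prime := ⟨q.2⟩
  exact brTorsionBound_of_layerCoh q p
    (localLayerCoh_of_adapt (layerAdapt (q : ℕ)) (absLayerCoh_of_absFund (absFund_of_absClass hC)))

/-- **`BrTorsionBound` from the absolute local class** (Mathlib `Rep.ofAlgebraAutOnUnits` form):
the same single input as P2. -/
theorem brTorsionBound_of_absClass' (q : Nat.Primes) (p : ℕ) [Fact p.Prime]
    (hC : @AbsClass' (q : ℕ) ⟨q.2⟩) : BrTorsionBound q p := by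
  have : Fact (q : ℕ).Prime := ⟨q.2⟩
  exact brTorsionBound_of_absClass q p (absClass_of_absClass' hC)

/-- **`|Br(K)[p]| ≤ p` for every finite `K/ℚ_q`, UNCONDITIONALLY** (helper51's
`LocDev51.absClass'` = the absolute lower bound of local class field theory). -/
theorem brTorsionBound (q : Nat.Primes) (p : ℕ) [Fact p.Prime] : BrTorsionBound q p :=
  brTorsionBound_of_absClass' q p (@LocDev51.absClass' (q : ℕ) ⟨q.2⟩)

/-- the layer cohomology, unconditionally: every finite layer `(V ⧸ U, Ω^U)` of the local Galois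
group has `H³ = 0` and cyclic `H²` of order `|V ⧸ U|`. -/
theorem localLayerCoh (q : ℕ) [Fact q.Prime] : LocalLayerCoh q :=
  localLayerCoh_of_adapt (layerAdapt q)
    (absLayerCoh_of_absFund (absFund_of_absClass (absClass_of_absClass' (LocDev51.absClass' q))))

end Final

end Fermat.Agent.S55.P2Local71
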