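/-
[22h, second route] (helper71): every class of `Br(K) = H²(G_K, Ωˣ)` is unramified
(`LocInv28.Main.PresCochain K`), from
  (T) the torsion bound `|Br(K)[n]| ≤ n` (`P2Local71.localLayerCoh`, unconditional),
  (K) helper28's norm criterion `LocInv28.Padic.cls_eq_zero_iff` and `vK_surjective`,
  (A) averaging: every level class is killed by the index of its level.
Proof: `x ∈ Br(K)` is `n`-torsion for some `n > 0`; `z := cls n π` (`π` a uniformizer) has order
exactly `n` by (K); so the `n` multiples of `z` exhaust `Br(K)[n]` by (T); hence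
`x = j • z = cls n (j • π)`.
-/
import Fermat.Agent.S55.P2Local71.BrTorsion
import Fermat.Agent.S55.LocInv28.Main

set_option autoImplicit false

open CategoryTheory groupCohomology
open Fermat.Agent.S55.Profin15
open Fermat.Agent.S55.LocDev51
open Fermat.Agent.S55.CDKummer71
open Fermat.Agent.S55.LocInv28.Abstract
open Fermat.Agent.S55.GlobalInv91

namespace Fermat.Agent.S55.P2Local71

attribute [local instance] Units.mulDistribMulActionRight

section Abstract

/-- every level class is torsion (averaging over the level) -/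
lemma exists_nsmul_H2_eq_zero {k G : Type} [CommRing k] [Group G] {𝒰 : LevelStr G}
    {A : Rep.{0, 0, 0} k G} (x : 𝒰.H2 A) : ∃ n : ℕ, 0 < n ∧ n • x = 0 := by
  obtain ⟨c, rfl⟩ := Submodule.Quotient.mk_surjective _ x
  obtain ⟨hcoc, U, hU, hconst⟩ := c.2
  have hfi := 𝒰.finiteIndex U hU
  have hcoc' : dd23 A.ρ (c : G × G → A) = 0 := by
    have h1 : (d₂₃ A).hom (c : G × G → A) = 0 := LinearMap.mem_ker.1 hcoc
    rwa [d₂₃_eq_dd23] at h1
  obtain ⟨e, he, hde⟩ := exists_dd12_eq_index_nsmul A.ρ hfi hconst hcoc'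
  refine ⟨U.index, Nat.pos_of_ne_zero hfi.index_ne_zero, ?_⟩
  have h0 : 𝒰.H2π A (U.index • c) = 0 := by
    rw [LevelStr.H2π_eq_zero_iff, LevelStr.mem_B₂_iff]
    exact ⟨e, ⟨U, hU, he⟩, by rw [d₁₂_eq_dd12, hde]; rfl⟩
  rw [map_nsmul] at h0
  exact h0

/-- **`pres` from the norm criterion and the torsion bound** (abstract form, any level
structure): if `cls n a = 0 ↔ n ∣ v a`, some invariant `π` has `v π = 1`, and the `n`-torsion of
`𝒰.H2 A` has at most `n` elements for every `n > 0`, then every class is some `cls n a`. -/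
theorem exists_cls_eq {G : Type} [Group G] {𝒰 : LevelStr G} {A : Rep.{0, 0, 0} ℤ G}
    (D : InvDatum 𝒰 A)
    (hker : ∀ (n : ℕ+) (a : invts A), D.cls n a = 0 ↔ ((n : ℕ) : ℤ) ∣ D.v a)
    (π : invts A) (hπ : D.v π = 1)
    (hT : ∀ n : ℕ, 0 < n → ∀ s : Finset (𝒰.H2 A), (∀ x ∈ s, n • x = 0) → s.card ≤ n)
    (x : 𝒰.H2 A) : ∃ (n : ℕ+) (a : invts A), x = D.cls n a := by
  classical
  obtain ⟨n, hn, hx⟩ := exists_nsmul_H2_eq_zero x
  let N : ℕ+ := ⟨n, hn⟩
  have hz : ∀ j : ℕ, j • D.cls N π = D.cls N (j • π) := fun j => (map_nsmul _ _ _).symm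
  have hv : ∀ j : ℕ, D.v (j • π) = (j : ℤ) := fun j => by
    rw [map_nsmul, hπ, nsmul_eq_mul, mul_one]
  have hnz : n • D.cls N π = 0 := by
    rw [hz, hker, hv]
    exact dvd_refl _
  have key : ∀ i j : ℕ, i ≤ j → j < n → i • D.cls N π = j • D.cls N π → i = j := by
    intro i j hij hjn h
    have h0 : (j - i) • D.cls N π = 0 := by
      have h1 : (j - i) • D.cls N π + i • D.cls N π = j • D.cls N π := by
        rw [← add_nsmul, Nat.sub_add_cancel hij]
      rw [h, add_eq_right] at h1
      exact h1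
    rw [hz, hker, hv] at h0
    have h2 : n ∣ j - i := Int.natCast_dvd_natCast.1 h0
    have h3 := Nat.eq_zero_of_dvd_of_lt h2 (by omega)
    omega
  have hinj : Set.InjOn (fun j : ℕ => j • D.cls N π) (Finset.range n : Set ℕ) := by
    intro i hi j hj h
    rcases le_total i j with hij | hij
    · exact key i j hij (Finset.mem_range.1 (Finset.mem_coe.1 hj)) h
    · exact (key j i hij (Finset.mem_range.1 (Finset.mem_coe.1 hi)) h.symm).symm
  have hcard : ((Finset.range n).image (fun j : ℕ => j • D.cls N π)).card = n := by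
    rw [Finset.card_image_of_injOn hinj, Finset.card_range]
  have hs₀ : ∀ y ∈ (Finset.range n).image (fun j : ℕ => j • D.cls N π), n • y = 0 := by
    intro y hy
    obtain ⟨j, -, rfl⟩ := Finset.mem_image.1 hy
    rw [smul_comm, hnz, smul_zero]
  by_cases hxs : x ∈ (Finset.range n).image (fun j : ℕ => j • D.cls N π)
  · obtain ⟨j, -, rfl⟩ := Finset.mem_image.1 hxs
    exact ⟨N, j • π, hz j⟩
  · exfalso
    have h1 := hT n hn (insert x ((Finset.range n).image (fun j : ℕ => j • D.cls N π)))
      (fun y hy => by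
        rcases Finset.mem_insert.1 hy with rfl | hy
        · exact hx
        · exact hs₀ y hy)
    rw [Finset.card_insert_of_notMem hxs, hcard] at h1
    omega

end Abstract

section Carrier

open Fermat.Agent.S55.KummerBr95 Fermat.Agent.S55.LevelScalars13
open Fermat.Agent.S55.LocInv28.Padic Fermat.Agent.S55.LocInv28.Main
open Fermat.Agent.S55.LocField17 Fermat.Agent.S55.LocInv28.FrobChar

variable {q : ℕ} [Fact q.Prime] (K : LF q) [FiniteDimensional ℚ_[q] K]

/-- helper28's Krull levels of `G_K` are cofinal with the levels restricted from `lev q` -/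
theorem levelsK_equiv_restrictLev :
    LevelEquiv (levelsK K)
      (CD3.restrictLevels (lev q) K.fixingSubgroup (isOpenSub_fixingSubgroup_lev q K)) :=
  ((lev_equiv_galLevels q).symm.comap K.fixingSubgroup.subtype).trans
    (comap_subtype_equiv_restrictLevelsCD3 (lev q) K.fixingSubgroup
      (isOpenSub_fixingSubgroup_lev q K))

/-- the two models of the `G_K`-module `Ωˣ` (helper28's `AK K` and helper51's `unitsRep`) -/
noncomputable def akToUnits : (AK K) ≃+ (unitsRep ↥K.fixingSubgroup (Om q)) :=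
  AddEquiv.refl (Additive (PadicAlgCl q)ˣ)

omit [FiniteDimensional ℚ_[q] K] in
theorem isAddEquivariant_akToUnits :
    IsAddEquivariant (akToUnits K).toAddMonoidHom := fun _ _ => rfl

/-- helper28's carrier of `Br(K)` is the level `H²` of `G_K ≤ G_{ℚ_q}` with the levels restricted
from `lev q` and coefficients `unitsRep`. -/
noncomputable def brEquivK :
    (levelsK K).H2 (AK K) ≃+
      (CD3.restrictLevels (lev q) K.fixingSubgroup (isOpenSub_fixingSubgroup_lev q K)).H2
        (unitsRep ↥K.fixingSubgroup (Om q)) :=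
  ((levelsK_equiv_restrictLev K).H2Equiv (AK K)).toAddEquiv.trans
    (addH2equiv _ (akToUnits K) (isAddEquivariant_akToUnits K))

/-- **`|Br(K)[n]| ≤ n`** on helper28's carrier, finset form (no module structure involved). -/
theorem card_torsion_levelsK_le (n : ℕ) (hn : 0 < n) (s : Finset ((levelsK K).H2 (AK K)))
    (hs : ∀ x ∈ s, n • x = 0) : s.card ≤ n := by
  classical
  have hV := isOpenSub_fixingSubgroup_lev q K
  have h1 : (s.image (brEquivK K)).card = s.card :=
    Finset.card_image_of_injective _ (brEquivK K).injective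
  rw [← h1]
  refine card_torsion_H2_le _ (isSmoothRep_units K.fixingSubgroup hV) n hn (fun U hU => ?_) _
    (fun y hy => ?_)
  · have hn' := (CD3.restrictLevels (lev q) K.fixingSubgroup hV).normal U hU
    obtain ⟨γ, hγ, -⟩ := isCyclicH2Level_of_layerCoh (localLayerCoh q) K.fixingSubgroup hV U hU
    exact ⟨U, hn', hU, le_rfl, γ, hγ⟩
  · obtain ⟨x, hx, rfl⟩ := Finset.mem_image.1 hy
    rw [← map_nsmul, hs x hx, map_zero]

/-- **`|Br(K)[n]| ≤ n`** on helper28's carrier, `Submodule.torsionBy` form. -/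
theorem brTorsion_levelsK (n : ℕ) (hn : 0 < n) :
    Finite ↥(Submodule.torsionBy ℤ ((levelsK K).H2 (AK K)) (n : ℤ)) ∧
      Nat.card ↥(Submodule.torsionBy ℤ ((levelsK K).H2 (AK K)) (n : ℤ)) ≤ n :=
  torsionBy_card_transport (brEquivK K) (n : ℤ) n
    (brTorsion_restrict (localLayerCoh q) K.fixingSubgroup (isOpenSub_fixingSubgroup_lev q K) n hn)

/-- **every class of `Br(K)` is unramified** (class form, helper28's `pres`), unconditionally. -/
theorem pres_levelsK (x : (levelsK K).H2 (AK K)) :
    ∃ (n : ℕ+) (a : invts (AK K)),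
      x = (padicDatum K (levelsK K) (goodLevels_levelsK K)).cls n a := by
  obtain ⟨π, hπ⟩ := vK_surjective K 1
  exact exists_cls_eq (padicDatum K (levelsK K) (goodLevels_levelsK K))
    (cls_eq_zero_iff K (levelsK K) (goodLevels_levelsK K)) π hπ (card_torsion_levelsK_le K) x

/-- **the local invariant datum computes `Br(K)`**, unconditionally. -/
theorem isLocalInv :
    IsLocalInv (levelsK K) (AK K) (padicDatum K (levelsK K) (goodLevels_levelsK K)) :=
  isLocalInv_of_pres K (levelsK K) (goodLevels_levelsK K) (pres_levelsK K)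

/-- **helper28's `PresCochain K`, unconditionally**: every 2-cocycle of `G_K` in `Ωˣ` constant
modulo `G_L` is a Frobenius carry cocycle up to the coboundary of a cochain constant modulo some
`G_M`. -/
theorem presCochain : PresCochain K := by
  intro L hL hKL hst c hcoc hconst
  have := hL
  obtain ⟨U, hU, hUL⟩ := exists_level_le K L
  have hc2 : (levelsK K).IsConst₂ c :=
    ⟨U, hU, fun g g' s s' hs hs' => hconst g g' s s' (hUL s hs) (hUL s' hs')⟩
  obtain ⟨n, a, hx⟩ := pres_levelsK K ((levelsK K).H2π (AK K) ⟨c, hcoc, hc2⟩)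
  rw [InvDatum.cls_apply, ← sub_eq_zero, ← map_sub, LevelStr.H2π_eq_zero_iff,
    LevelStr.mem_B₂_iff] at hx
  obtain ⟨y, ⟨U', hU', hy⟩, hdy⟩ := hx
  obtain ⟨E, hE, -, hEU⟩ := exists_field_of_level K hU'
  refine ⟨n, (a : AK K), y, E, hE, fun g => a.2 g, fun g s hs => hy g s ((hEU s).2 hs), ?_⟩
  have h1 : (d₁₂ (AK K)).hom y = c - carry (AK K) (chi K n) (a : AK K) := hdy
  rw [h1]
  abel

end Carrier

end Fermat.Agent.S55.P2Local71
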