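/-
[22b, unconditional wrappers] (helper71): with `P2Local71.presCochain` the hypothesis
`PresCochain` / `LocalPres` of the local-invariant files is discharged.  Named hypothesis-free
forms of helper95's `KummerBr95.LocalPres q`, helper93's `invFamilyOfPres` / `locSys`, and
helper28's `invK` / `invBase` / `invW`.
-/
import Fermat.Agent.S55.P2Local71.Pres
import Fermat.Agent.S55.UnrExt93.LocSysInst
import Fermat.Agent.S55.LocInv28.OpenSub
import Fermat.Agent.S55.LocInv28.Base

set_option autoImplicit false

open CategoryTheory groupCohomology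
open Fermat.Agent.S55.Profin15
open Fermat.Agent.S55.LocInv28.Abstract

namespace Fermat.Agent.S55.P2Local71

section Primes

attribute [local instance] Fermat.Agent.S55.KummerBr95.fact_prime

/-- **helper95's `KummerBr95.LocalPres q`, unconditionally**: every class of `Br(K)` is
unramified, for all finite `K/ℚ_q`. -/
theorem localPres (q : Nat.Primes) : KummerBr95.LocalPres q := fun K _ => pres_levelsK K

/-- helper93's family of local invariants on the restricted Krull levels, unconditionally. -/
noncomputable def invFamily71 (q : Nat.Primes) : UnrExt93.InvFamily (q : ℕ) :=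
  UnrExt93.invFamilyOfPres q (localPres q)

/-- **helper93's local system of invariants at `q` for the finite Galois level `L/ℚ`
(helper37's request 22b-SYS), unconditionally.** -/
noncomputable def locSys71 (q : Nat.Primes) (L : IntermediateField ℚ Idele73.Basic.Qbar) [Normal ℚ L]
    [FiniteDimensional ℚ L] :
    CycloRecip37.GSys.Sys (Idele73.Local.EUnits (q : ℕ) L) QZ33.QZ :=
  UnrExt93.locSys q L (localPres q)

lemma locSys71_eq (q : Nat.Primes) (L : IntermediateField ℚ Idele73.Basic.Qbar) [Normal ℚ L]
    [FiniteDimensional ℚ L] : locSys71 q L = UnrExt93.locSys q L (localPres q) := rfl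

end Primes

section Nat

open Fermat.Agent.S55.LocInv28.Padic Fermat.Agent.S55.LocInv28.Main
open Fermat.Agent.S55.LocField17

variable {q : ℕ} [Fact q.Prime]

/-- the hypothesis `hP` of `LocInv28.OpenSub.invSub / invW`, discharged. -/
theorem presCochain_all : ∀ (K : LF q) [FiniteDimensional ℚ_[q] K], PresCochain K :=
  fun K _ => presCochain K

/-- **the local invariant `inv_K : Br(K) ≃+ ℚ/ℤ`**, unconditionally. -/
noncomputable def invK71 (K : LF q) [FiniteDimensional ℚ_[q] K] :
    (levelsK K).H2 (AK K) ≃+ AddCircle (1 : ℚ) :=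
  invK K (presCochain K)

theorem invK71_cls (K : LF q) [FiniteDimensional ℚ_[q] K] (n : ℕ+) (a : invts (AK K)) :
    invK71 K ((padicDatum K (levelsK K) (goodLevels_levelsK K)).cls n a) = frac (vK K a) n :=
  invK_cls K (presCochain K) n a

theorem invK71_res {K L : LF q} [FiniteDimensional ℚ_[q] K] [FiniteDimensional ℚ_[q] L]
    (h : K ≤ L) (x : (levelsK K).H2 (AK K)) :
    invK71 L ((isContinuous_inclG h).res₂ (AK K) x) =
      (LocField17.ramIdx h * LocField17.resDeg h) • invK71 K x :=
  invK_res h (presCochain K) (presCochain L) x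

/-- **the local invariant of `ℚ_q`** on `H²(Gal(Ω/ℚ_q); Ωˣ)` for the levels pulled back from
`G_ℚ`, unconditionally. -/
noncomputable def invBase71 :
    (pullLevels (localGaloisToGlobal q)).H2 (LocInv28.OpenSub.Om q) ≃+ AddCircle (1 : ℚ) :=
  LocInv28.Base.invBase (presCochain (⊥ : LF q))

theorem exists_torsion_invBase71_ne (m : ℕ) (hm : 1 < m) :
    ∃ z : (pullLevels (localGaloisToGlobal q)).H2 (LocInv28.OpenSub.Om q),
      m • z = 0 ∧ invBase71 (q := q) z ≠ 0 :=
  LocInv28.Base.exists_torsion_invBase_ne (presCochain (⊥ : LF q)) m hm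

/-- **the local invariant on `H²(D; Ωˣ)` for any open `D ≤ Gal(Ω/ℚ_q)`** (levels pulled back
from `G_ℚ`), unconditionally. -/
noncomputable def invW71 (D : Subgroup (PadicAlgCl q ≃ₐ[ℚ_[q]] PadicAlgCl q))
    (hD : ∃ W ∈ (pullLevels (localGaloisToGlobal q)).levels, W ≤ D) :
    ((pullLevels (localGaloisToGlobal q)).comap D.subtype).H2
        (Rep.res D.subtype (LocInv28.OpenSub.Om q)) ≃+ AddCircle (1 : ℚ) :=
  LocInv28.OpenSub.invW D hD presCochain_all

end Nat

end Fermat.Agent.S55.P2Local71
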