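/-
[P5 + W59 local dimension] (helper71): UNCONDITIONAL.

`Contract34.LocalDim p S` (plug P5 of `Final33.arithStatement_of`) and `R3Local52.LocalDim p S`
(the local dimension input of route W59) from `P2Local71.brTorsionBound` (`|Br(K)[p]| ≤ p`, proved
from the cyclicity of the finite layers + helper51's absolute local class) through helper95's glue
`KummerBr95.LocalGlue`.  Also P2 in the literal `Final33` shape (helper51's
`LocDev51.localRightExact`).
-/
import Fermat.Agent.S55.P2Local71.BrTorsion
import Fermat.Agent.S55.KummerBr95.LocalGlue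

set_option autoImplicit false

open ExtCitation

namespace Fermat.Agent.S55.P2Local71

/-- **P5, unconditionally.** -/
theorem localDim (p : ℕ) [Fact p.Prime] (S : Finset Nat.Primes) : Contract34.LocalDim p S :=
  KummerBr95.localDim_of_brTorsionBound p S fun q _ => brTorsionBound q p

/-- **the local dimension input of route W59, unconditionally.** -/
theorem r3LocalDim (p : ℕ) [Fact p.Prime] (S : Finset Nat.Primes) (hpS : pPrime p ∈ S) :
    R3Local52.LocalDim p S :=
  KummerBr95.r3LocalDim_of_brTorsionBound p S hpS fun q _ => brTorsionBound q p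

/-- helper86's producer-side Prop, unconditionally -/
theorem localTrivDim (p : ℕ) [Fact p.Prime] (q : Nat.Primes) : LocalDimW59_86.LocalTrivDim p q :=
  KummerBr95.localTrivDim_of_brTorsionBound p q (brTorsionBound q p)

/-- helper88's intrinsic Prop, unconditionally -/
theorem localBrDim (p : ℕ) [Fact p.Prime] (q : Nat.Primes) : LocalBase88.LocalBrDim p q :=
  KummerBr95.localBrDim_of_brTorsionBound p q (brTorsionBound q p)

/-- **P5 in the literal shape of `Final33.arithStatement_of`.** -/
theorem p5 : ∀ (p : ℕ) [Fact p.Prime], p ≠ 2 → ∀ S : Finset Nat.Primes, pPrime p ∈ S →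
    Contract34.LocalDim p S :=
  fun p _ _ S _ => localDim p S

/-- **P2 in the literal shape of `Final33.arithStatement_of`.** -/
theorem p2 : ∀ (p : ℕ) [Fact p.Prime], p ≠ 2 → ∀ S : Finset Nat.Primes, pPrime p ∈ S →
    ∀ q ∈ S, Contract34.LocalRightExact p q :=
  fun p _ _ _ _ q _ => LocDev51.localRightExact p q

end Fermat.Agent.S55.P2Local71
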